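import Fermat.Agent.S55.Local.Defs
import Fermat.Prelude.Thm_Algebra_finite_maximalSpectrum_and_bijective_localization_of_module_finite
import Fermat.Prelude.Thm_IsLocalRing_isAdicComplete_of_module_finite

/-!
# S55, layer L, piece LF0 : the ring of integers of a local field  (helper303)

BASE `(A, F)`: complete DVR with finite residue field and its fraction field, char. 0.
`L / F` finite.  With `letI := algAL A F L` (the `A`-algebra structure `toL A F L` on `L`),
`integralClosure A L` is the ring of integers `O_L`.  We prove that it is a complete DVR with
finite residue field, finite free over `A`, with fraction field `L`.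
-/

set_option autoImplicit false
set_option linter.style.haveILetI false
set_option linter.unusedSectionVars false
set_option linter.unusedVariables false

namespace Fermat.Agent.S55.Local.H303

open Fermat.Agent.S55.Local

section Base

variable (A F : Type) [CommRing A] [Field F] [Algebra A F]
variable (L : Type) [Field L] [Algebra F L]

/-- The `A`-algebra structure on `L` given by `toL A F L` (NOT an instance: use `letI`). -/
@[reducible] def algAL : Algebra A L := (toL A F L).toAlgebra

lemma isScalarTower_AFL : letI := algAL A F L; IsScalarTower A F L :=
  letI := algAL A F L
  IsScalarTower.of_algebraMap_eq (fun _ => rfl)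

lemma isInt_iff_isIntegral (x : L) : IsInt A F L x ↔ (letI := algAL A F L; IsIntegral A x) :=
  Iff.rfl

lemma isInt_iff_mem (x : L) :
    IsInt A F L x ↔ (letI := algAL A F L; x ∈ integralClosure A L) := Iff.rfl

end Base

section Local

variable (A F : Type) [CommRing A] [IsDomain A] [IsDiscreteValuationRing A]
    [IsAdicComplete (IsLocalRing.maximalIdeal A) A] [Finite (IsLocalRing.ResidueField A)]
    [Field F] [CharZero F] [Algebra A F] [IsFractionRing A F]
    (L : Type) [Field L] [Algebra F L] [FiniteDimensional F L]

lemma isSeparable_FL : Algebra.IsSeparable F L := inferInstance

lemma moduleFinite_int :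
    letI := algAL A F L; Module.Finite A (integralClosure A L) := by
  letI := algAL A F L
  haveI := isScalarTower_AFL A F L
  exact IsIntegralClosure.finite A F L (integralClosure A L)

lemma moduleFree_int :
    letI := algAL A F L; Module.Free A (integralClosure A L) := by
  letI := algAL A F L
  haveI := isScalarTower_AFL A F L
  haveI : Module.IsTorsionFree A L := by
    haveI : FaithfulSMul A L := by
      rw [faithfulSMul_iff_algebraMap_injective]
      exact (algebraMap F L).injective.comp (IsFractionRing.injective A F)
    infer_instance
  exact IsIntegralClosure.module_free A F L (integralClosure A L)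

lemma finrank_int :
    letI := algAL A F L; Module.finrank A (integralClosure A L) = Module.finrank F L := by
  letI := algAL A F L
  haveI := isScalarTower_AFL A F L
  haveI : Module.IsTorsionFree A L := by
    haveI : FaithfulSMul A L := by
      rw [faithfulSMul_iff_algebraMap_injective]
      exact (algebraMap F L).injective.comp (IsFractionRing.injective A F)
    infer_instance
  exact IsIntegralClosure.rank A F L (integralClosure A L)

lemma isFractionRing_int :
    letI := algAL A F L; IsFractionRing (integralClosure A L) L := by
  letI := algAL A F L
  haveI := isScalarTower_AFL A F L
  exact integralClosure.isFractionRing_of_finite_extension F L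

lemma isDedekindDomain_int :
    letI := algAL A F L; IsDedekindDomain (integralClosure A L) := by
  letI := algAL A F L
  haveI := isScalarTower_AFL A F L
  exact integralClosure.isDedekindDomain A F L

/-- A domain that is a finite algebra over a complete Noetherian local ring is local. -/
lemma isLocalRing_of_finite_of_isDomain (R B : Type) [CommRing R] [IsLocalRing R]
    [IsNoetherianRing R] [IsAdicComplete (IsLocalRing.maximalIdeal R) R]
    [CommRing B] [IsDomain B] [Algebra R B] [Module.Finite R B] : IsLocalRing B := by
  obtain ⟨-, hbij, -, -⟩ :=
    Algebra.finite_maximalSpectrum_and_bijective_localization_of_module_finite (𝒪 := R) B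
  classical
  have hsub : ∀ I J : MaximalSpectrum B, I = J := by
    intro I J
    by_contra hIJ
    obtain ⟨bI, hbI⟩ := hbij.2 (Pi.single I 1)
    obtain ⟨bJ, hbJ⟩ := hbij.2 (Pi.single J 1)
    have hmul : bI * bJ = 0 := by
      apply hbij.1
      rw [map_mul, hbI, hbJ, map_zero]
      funext K
      by_cases hK : K = I
      · subst hK
        simp [Pi.single_eq_of_ne hIJ]
      · simp [Pi.single_eq_of_ne hK]
    rcases mul_eq_zero.mp hmul with h | h
    · rw [h, map_zero] at hbI
      have := congrFun hbI I
      simp at this
    · rw [h, map_zero] at hbJ
      have := congrFun hbJ J
      simp at this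
  obtain ⟨m, hm⟩ := Ideal.exists_maximal B
  refine IsLocalRing.of_unique_max_ideal ⟨m, hm, ?_⟩
  intro m' hm'
  exact congrArg MaximalSpectrum.asIdeal (hsub ⟨m', hm'⟩ ⟨m, hm⟩)

lemma isLocalRing_int :
    letI := algAL A F L; IsLocalRing (integralClosure A L) := by
  letI := algAL A F L
  haveI : Module.Finite A (integralClosure A L) := moduleFinite_int A F L
  exact isLocalRing_of_finite_of_isDomain A (integralClosure A L)

lemma not_isField_int :
    letI := algAL A F L; ¬ IsField (integralClosure A L) := by
  letI := algAL A F L
  intro h
  have hinj : Function.Injective (algebraMap A (integralClosure A L)) := by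
    intro a b hab
    have : algebraMap A L a = algebraMap A L b := congrArg Subtype.val hab
    exact (IsFractionRing.injective A F) ((algebraMap F L).injective this)
  haveI : Algebra.IsIntegral A (integralClosure A L) := inferInstance
  exact IsDiscreteValuationRing.not_isField A
    (isField_of_isIntegral_of_isField hinj h)

lemma isDVR_int :
    letI := algAL A F L; IsDiscreteValuationRing (integralClosure A L) := by
  letI := algAL A F L
  haveI : IsLocalRing (integralClosure A L) := isLocalRing_int A F L
  haveI : IsDedekindDomain (integralClosure A L) := isDedekindDomain_int A F L
  have h := (IsDiscreteValuationRing.TFAE (integralClosure A L) (not_isField_int A F L)).out 2 0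
  exact h.mp (isDedekindDomain_int A F L)

lemma isLocalHom_int :
    letI := algAL A F L; IsLocalHom (algebraMap A (integralClosure A L)) := by
  letI := algAL A F L
  have hinj : Function.Injective (algebraMap A (integralClosure A L)) := by
    intro a b hab
    have : algebraMap A L a = algebraMap A L b := congrArg Subtype.val hab
    exact (IsFractionRing.injective A F) ((algebraMap F L).injective this)
  haveI : Algebra.IsIntegral A (integralClosure A L) := inferInstance
  exact RingHom.IsIntegral.isLocalHom (algebraMap_isIntegral_iff.mpr inferInstance) hinj

lemma isAdicComplete_int :
    letI := algAL A F L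
    haveI : IsLocalRing (integralClosure A L) := isLocalRing_int A F L
    IsAdicComplete (IsLocalRing.maximalIdeal (integralClosure A L)) (integralClosure A L) := by
  letI := algAL A F L
  haveI : IsLocalRing (integralClosure A L) := isLocalRing_int A F L
  haveI : Module.Finite A (integralClosure A L) := moduleFinite_int A F L
  haveI : IsLocalHom (algebraMap A (integralClosure A L)) := isLocalHom_int A F L
  exact IsLocalRing.isAdicComplete_of_module_finite (𝒪 := A)

lemma finite_residueField_int :
    letI := algAL A F L
    haveI : IsLocalRing (integralClosure A L) := isLocalRing_int A F L
    Finite (IsLocalRing.ResidueField (integralClosure A L)) := by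
  letI := algAL A F L
  haveI : IsLocalRing (integralClosure A L) := isLocalRing_int A F L
  haveI : Module.Finite A (integralClosure A L) := moduleFinite_int A F L
  haveI : IsLocalHom (algebraMap A (integralClosure A L)) := isLocalHom_int A F L
  haveI : Module.Finite (IsLocalRing.ResidueField A)
      (IsLocalRing.ResidueField (integralClosure A L)) := inferInstance
  exact Module.finite_of_finite (IsLocalRing.ResidueField A)

end Local

end Fermat.Agent.S55.Local.H303
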