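import Fermat.Agent.S55.Local.Spec
import Fermat.Agent.S55.Local.H303.LF0

/-!
# S55, layer L, pieces LF1, LF2, LF3, LF4, LF8 in exact Spec shape (helper303)
-/

set_option autoImplicit false
set_option linter.style.haveILetI false
set_option linter.unusedSectionVars false
set_option linter.unusedVariables false

namespace Fermat.Agent.S55.Local.H303

open Fermat.Agent.S55.Local

section Tower

variable (A F : Type) [CommRing A] [Field F] [Algebra A F]
variable (K : Type) [Field K] [Algebra F K]
variable (L : Type) [Field L] [Algebra F L] [Algebra K L] [IsScalarTower F K L]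

lemma toL_tower : toL A F L = (algebraMap K L).comp (toL A F K) := by
  ext a
  simp [toL, IsScalarTower.algebraMap_apply F K L]

lemma isScalarTower_AKL :
    letI := algAL A F K; letI := algAL A F L; IsScalarTower A K L :=
  letI := algAL A F K
  letI := algAL A F L
  IsScalarTower.of_algebraMap_eq (fun a => by
    change toL A F L a = algebraMap K L (toL A F K a)
    rw [toL_tower A F K L]; rfl)

/-- Integrality of `y : K` can be tested in `L`. -/
lemma isInt_algebraMap_iff (y : K) : IsInt A F L (algebraMap K L y) ↔ IsInt A F K y := by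
  letI := algAL A F K
  letI := algAL A F L
  haveI := isScalarTower_AKL A F K L
  exact isIntegral_algebraMap_iff (R := A) (algebraMap K L).injective

/-- `K`-algebra automorphisms... more generally `K`-algebra maps preserve integrality. -/
lemma isInt_algEquiv_iff (σ : L ≃ₐ[K] L) (x : L) : IsInt A F L (σ x) ↔ IsInt A F L x := by
  letI := algAL A F K
  letI := algAL A F L
  haveI := isScalarTower_AKL A F K L
  exact isIntegral_algEquiv (R := A) (σ.restrictScalars A)

lemma isInt_norm {x : L} (hx : IsInt A F L x) : IsInt A F K (Algebra.norm K x) := by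
  letI := algAL A F K
  letI := algAL A F L
  haveI := isScalarTower_AKL A F K L
  exact Algebra.isIntegral_norm K hx

end Tower

/-- (LF3) -/
theorem intUnitsComap : IntUnitsComapStatement := by
  intro A F _ _ _ _ _ _ _ _ _ K _ _ _ L _ _ _ _ _ y
  simp only [mem_intUnits, unitsIncl_coe]
  have h2 : (((unitsIncl L K y)⁻¹ : Lˣ) : L) = algebraMap K L ((y⁻¹ : Kˣ) : K) := by
    rw [← map_inv]; rfl
  rw [h2, isInt_algebraMap_iff, isInt_algebraMap_iff]

/-- (LF8) -/
theorem normUnitsInt : NormUnitsIntStatement := by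
  intro A F _ _ _ _ _ _ _ _ _ K _ _ _ L _ _ _ _ _ x hx
  rw [mem_intUnits] at hx ⊢
  refine ⟨by simpa using isInt_norm A F K L hx.1, ?_⟩
  have : (((normUnits L K x)⁻¹ : Kˣ) : K) = Algebra.norm K (((x⁻¹ : Lˣ)) : L) := by
    rw [← map_inv]; rfl
  rw [this]
  exact isInt_norm A F K L hx.2

section Local

variable (A F : Type) [CommRing A] [IsDomain A] [IsDiscreteValuationRing A]
    [IsAdicComplete (IsLocalRing.maximalIdeal A) A] [Finite (IsLocalRing.ResidueField A)]
    [Field F] [CharZero F] [Algebra A F] [IsFractionRing A F]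
    (L : Type) [Field L] [Algebra F L] [FiniteDimensional F L]

lemma isInt_or_isInt_inv (x : L) : IsInt A F L x ∨ IsInt A F L x⁻¹ := by
  letI := algAL A F L
  haveI : IsDiscreteValuationRing (integralClosure A L) := isDVR_int A F L
  haveI : IsFractionRing (integralClosure A L) L := isFractionRing_int A F L
  rcases ValuationRing.isInteger_or_isInteger (integralClosure A L) x with ⟨b, hb⟩ | ⟨b, hb⟩
  · left; rw [← hb]; exact b.2
  · right; rw [← hb]; exact b.2

/-- a unit of `L` whose value is integral with integral inverse -/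
lemma mem_intUnits_of_isUnit_int (x : Lˣ)
    (h : letI := algAL A F L; ∃ u : (integralClosure A L)ˣ, ((u : integralClosure A L) : L) = x) :
    x ∈ intUnits A F L := by
  letI := algAL A F L
  obtain ⟨u, hu⟩ := h
  refine ⟨by rw [← hu]; exact (u : integralClosure A L).2, ?_⟩
  have : ((x⁻¹ : Lˣ) : L) = (((u⁻¹ : (integralClosure A L)ˣ) : integralClosure A L) : L) := by
    rw [Units.val_inv_eq_inv_val, ← hu]
    have h1 : (((u : integralClosure A L) : L)) * (((u⁻¹ : (integralClosure A L)ˣ) :
        integralClosure A L) : L) = 1 := by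
      rw [← MulMemClass.coe_mul]; simp
    exact (eq_inv_of_mul_eq_one_right h1).symm
  rw [this]
  exact ((u⁻¹ : (integralClosure A L)ˣ) : integralClosure A L).2

lemma exists_isUnif : ∃ ϖ : Lˣ, IsUnif A F L ϖ := by
  letI := algAL A F L
  haveI : IsDiscreteValuationRing (integralClosure A L) := isDVR_int A F L
  haveI : IsFractionRing (integralClosure A L) L := isFractionRing_int A F L
  obtain ⟨π, hπ⟩ := IsDiscreteValuationRing.exists_irreducible (integralClosure A L)
  have hπ0 : (π : L) ≠ 0 := by
    intro h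
    exact hπ.ne_zero (Subtype.ext h)
  refine ⟨Units.mk0 (π : L) hπ0, π.2, ?_, ?_⟩
  · rintro ⟨-, hinv⟩
    apply hπ.not_isUnit
    rw [isUnit_iff_exists_inv]
    refine ⟨⟨_, hinv⟩, ?_⟩
    apply Subtype.ext
    simp [mul_inv_cancel₀ hπ0]
  · intro x
    obtain ⟨a, b, hb, hab⟩ := IsFractionRing.div_surjective (A := integralClosure A L) (x : L)
    have hb0 : b ≠ 0 := nonZeroDivisors.ne_zero hb
    have ha0 : a ≠ 0 := by
      rintro rfl
      simp at hab
      exact x.ne_zero hab.symm
    obtain ⟨i, u, hu⟩ := IsDiscreteValuationRing.eq_unit_mul_pow_irreducible ha0 hπ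
    obtain ⟨j, w, hw⟩ := IsDiscreteValuationRing.eq_unit_mul_pow_irreducible hb0 hπ
    refine ⟨(i : ℤ) - j, ?_⟩
    apply mem_intUnits_of_isUnit_int
    refine ⟨u * w⁻¹, ?_⟩
    have hbL : ((b : integralClosure A L) : L) ≠ 0 := by
      intro h; exact hb0 (Subtype.ext h)
    have hwL : (((w : integralClosure A L)) : L) ≠ 0 := by
      intro h
      exact w.ne_zero (Subtype.ext h)
    have hw' : ((((w⁻¹ : (integralClosure A L)ˣ)) : integralClosure A L) : L)
        = (((w : integralClosure A L)) : L)⁻¹ := by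
      have h1 : (((w : integralClosure A L) : L)) * (((w⁻¹ : (integralClosure A L)ˣ) :
          integralClosure A L) : L) = 1 := by
        rw [← MulMemClass.coe_mul]; simp
      exact eq_inv_of_mul_eq_one_right h1
    have hx : (x : L) = (a : L) / (b : L) := hab.symm
    simp only [Units.val_mul, MulMemClass.coe_mul, hw', Units.val_zpow_eq_zpow_val,
      Units.val_mk0, hx, hu, hw, SubmonoidClass.coe_pow]
    rw [zpow_neg, zpow_sub₀ hπ0, zpow_natCast, zpow_natCast]
    have hπi : ((π : L)) ^ i ≠ 0 := pow_ne_zero _ hπ0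
    have hπj : ((π : L)) ^ j ≠ 0 := pow_ne_zero _ hπ0
    field_simp

end Local

section Galois

variable (A F : Type) [CommRing A] [IsDomain A] [IsDiscreteValuationRing A]
    [IsAdicComplete (IsLocalRing.maximalIdeal A) A] [Finite (IsLocalRing.ResidueField A)]
    [Field F] [CharZero F] [Algebra A F] [IsFractionRing A F]
    (K : Type) [Field K] [Algebra F K] [FiniteDimensional F K]
    (L : Type) [Field L] [Algebra F L] [Algebra K L] [IsScalarTower F K L]
    [FiniteDimensional K L]

omit [IsDomain A] [IsDiscreteValuationRing A] [IsAdicComplete (IsLocalRing.maximalIdeal A) A]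
  [Finite (IsLocalRing.ResidueField A)] [CharZero F] [IsFractionRing A F]
  [FiniteDimensional F K] [FiniteDimensional K L] in
lemma isInt_pow_algEquiv_iff (σ : L ≃ₐ[K] L) (n : ℕ) (x : L) :
    IsInt A F L ((σ ^ n) x) ↔ IsInt A F L x :=
  isInt_algEquiv_iff A F K L (σ ^ n) x

omit [IsDomain A] [IsDiscreteValuationRing A] [IsAdicComplete (IsLocalRing.maximalIdeal A) A]
  [Finite (IsLocalRing.ResidueField A)] [CharZero F] [IsFractionRing A F]
  [FiniteDimensional F K] [FiniteDimensional K L] in
lemma prod_range_pow_div (σ : L ≃ₐ[K] L) (x : L) (hx : x ≠ 0) (n : ℕ) :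
    ∏ i ∈ Finset.range n, (σ ^ i) (x / σ x) = x / (σ ^ n) x := by
  induction n with
  | zero => simp [div_self hx]
  | succ n ih =>
    rw [Finset.prod_range_succ, ih, pow_succ', AlgEquiv.mul_apply, map_div₀]
    have h1 : (σ ^ n) x ≠ 0 := (map_ne_zero_iff _ (σ ^ n).injective).mpr hx
    have h2 : σ ((σ ^ n) x) ≠ 0 := (map_ne_zero_iff _ σ.injective).mpr h1
    have h3 : (σ ^ n) (σ x) = σ ((σ ^ n) x) := by
      rw [← AlgEquiv.mul_apply, ← AlgEquiv.mul_apply, ← pow_succ, ← pow_succ']
    rw [h3]
    field_simp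

omit [IsDomain A] [IsDiscreteValuationRing A] [IsAdicComplete (IsLocalRing.maximalIdeal A) A]
  [Finite (IsLocalRing.ResidueField A)] [CharZero F] [IsFractionRing A F]
  [FiniteDimensional F K] in
/-- if `x / σ x` is integral then so is `σ x / x` -/
lemma isInt_smul_div_of (σ : L ≃ₐ[K] L) (x : L) (hx : x ≠ 0)
    (h : IsInt A F L (x / σ x)) : IsInt A F L (σ x / x) := by
  have hσx : σ x ≠ 0 := by simpa using hx
  have hm : 0 < orderOf σ := orderOf_pos σ
  obtain ⟨m, hm'⟩ : ∃ m, orderOf σ = m + 1 := ⟨orderOf σ - 1, by omega⟩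
  have hprod := prod_range_pow_div K L σ x hx (m + 1)
  rw [← hm', pow_orderOf_eq_one, AlgEquiv.one_apply, div_self hx, hm',
    Finset.prod_range_succ'] at hprod
  simp only [pow_zero, AlgEquiv.one_apply] at hprod
  have : σ x / x = ∏ i ∈ Finset.range m, (σ ^ (i + 1)) (x / σ x) := by
    have h0 : x / σ x ≠ 0 := div_ne_zero hx hσx
    have : (σ x / x) * (x / σ x) = 1 := by field_simp
    calc σ x / x = (σ x / x) * ((∏ i ∈ Finset.range m, (σ ^ (i + 1)) (x / σ x)) * (x / σ x)) := by
          rw [hprod, mul_one]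
      _ = (∏ i ∈ Finset.range m, (σ ^ (i + 1)) (x / σ x)) * ((σ x / x) * (x / σ x)) := by ring
      _ = _ := by rw [this, mul_one]
  rw [this]
  have hprodInt : ∀ (s : Finset ℕ), IsInt A F L (∏ i ∈ s, (σ ^ (i + 1)) (x / σ x)) := by
    intro s
    classical
    induction s using Finset.induction_on with
    | empty => simpa using isInt_one A F L
    | insert a s ha ih =>
      rw [Finset.prod_insert ha]
      exact ((isInt_pow_algEquiv_iff A F K L σ (a + 1) _).mpr h).mul ih
  exact hprodInt _

/-- `σ x / x` is integral for every `x ≠ 0` -/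
lemma isInt_smul_div (σ : L ≃ₐ[K] L) (x : L) (hx : x ≠ 0) : IsInt A F L (σ x / x) := by
  haveI : FiniteDimensional F L := FiniteDimensional.trans F K L
  have hσx : σ x ≠ 0 := by simpa using hx
  rcases isInt_or_isInt_inv A F L (x / σ x) with h | h
  · exact isInt_smul_div_of A F K L σ x hx h
  · rwa [inv_div] at h

end Galois

/-- (LF4) -/
theorem galoisInv : GaloisInvStatement := by
  intro A F _ _ _ _ _ _ _ _ _ K _ _ _ L _ _ _ _ _ σ x
  rw [mem_intUnits]
  have h1 : ((σ • x / x : Lˣ) : L) = σ (x : L) / (x : L) := by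
    rw [Units.val_div_eq_div_val]; rfl
  have h2 : (((σ • x / x)⁻¹ : Lˣ) : L) = σ⁻¹ (σ (x : L)) / σ (x : L) := by
    rw [inv_div, Units.val_div_eq_div_val]
    have : σ⁻¹ (σ (x : L)) = x := σ.symm_apply_apply _
    rw [this]; rfl
  rw [h1, h2]
  exact ⟨isInt_smul_div A F K L σ x x.ne_zero,
    isInt_smul_div A F K L σ⁻¹ (σ x) (by simp)⟩

/-- (LF1) -/
theorem intOrInv : IntOrInvStatement := by
  intro A F _ _ _ _ _ _ _ _ _ L _ _ _ x
  exact isInt_or_isInt_inv A F L x

/-- (LF2) -/
theorem existsUnif : ExistsUnifStatement := by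
  intro A F _ _ _ _ _ _ _ _ _ L _ _ _
  exact exists_isUnif A F L

end Fermat.Agent.S55.Local.H303
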